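import Mathlib
import Fermat.Agent.S29.H642.EigenChar
import Fermat.Agent.S41.Spec.Occ

/-!
# Row S41, block OCC (helper341): proof of `Spec.OccStatement`

* `occ_exists_eigenChar` : helper642's `exists_eigenChar` (S29/E2), with the extra conclusion that the
  character vanishes on the elements of finite order (same proof: the character factors through the
  period lattice `L_g ⊆ ℂ`, which is torsion-free).
* `occ` : block OCC.  Apply `occ_exists_eigenChar` to `F = ℤ̄ ⧸ 𝔪` and descend to `𝔽_p` by an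
  `𝔽_p`-linear functional `ℤ̄ ⧸ 𝔪 → 𝔽_p` (the Hecke transfer commutes with post-composition and the
  eigenvalues `a_ℓ(W) mod p`, `±(q'+1)` lie in the prime field).
-/

set_option autoImplicit false

namespace Fermat.Agent.S41.H341

open CongruenceSubgroup ModularCurve ModularCurve.Period ModularFormClass
open Fermat.Agent.S29.H642
open scoped MatrixGroups

section EigenChar

variable {N : ℕ} [NeZero N]

omit [NeZero N] in
/-- Periods along elements of finite order vanish. -/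
theorem occ_periodMap_eq_zero_of_pow (g : CuspForm (Gamma0 N) 2) {γ : Gamma0 N} {k : ℕ}
    (hk : 0 < k) (hγ : γ ^ k = 1) : periodMap N g (Additive.ofMul γ) = 0 := by
  have h1 : periodMap N g (k • Additive.ofMul γ) = k • periodMap N g (Additive.ofMul γ) :=
    map_nsmul _ _ _
  have h2 : k • Additive.ofMul γ = (0 : Additive (Gamma0 N)) := by
    rw [← ofMul_pow, hγ, ofMul_one]
  rw [h2, map_zero, nsmul_eq_mul] at h1
  rcases mul_eq_zero.mp h1.symm with h | h
  · exact absurd h (by exact_mod_cast hk.ne')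
  · exact h

/-- helper642's `exists_eigenChar`, with vanishing on the elements of finite order. -/
theorem occ_exists_eigenChar {g : CuspForm (Gamma0 N) 2} (hg : g.IsNormalizedEigenform)
    {p : ℕ} (hp : p.Prime) {F : Type*} [Field F] [CharP F p]
    (ψ : integralClosure ℤ ℂ →+* F) :
    ∃ χ : Additive (Gamma0 N) →+ F, χ ≠ 0 ∧ Spec.IsCuspidal χ ∧
      ∀ (ℓ : ℕ) [Fact ℓ.Prime] (hℓN : ¬ ℓ ∣ N) (a : integralClosure ℤ ℂ),
        (a : ℂ) = qCoeff ⇑g ℓ → ∀ γ : Additive (Gamma0 N),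
          heckeTransfer hℓN χ γ = ψ a * χ γ := by
  classical
  set L : AddSubgroup ℂ := perLattice g with hL
  have : AddGroup.FG L := perLattice_fg g
  have : Module.Finite (stabAlg L) L := stabModule_finite L
  have : Algebra.IsIntegral ℤ (stabAlg L) := stabAlg_isIntegral L
  let θ : stabAlg L →+* F := ψ.comp (stabAlg L).val.toRingHom
  have hmax : (RingHom.ker θ).IsMaximal := ker_isMaximal_of_integral hp θ
  obtain ⟨x₀, hx₀, hx₀0⟩ := perLattice_ne_bot (ne_zero_of_isNormalizedEigenform hg)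
  have hfaith : ∀ r : stabAlg L, (∀ x : L, r • x = 0) → θ r = 0 := by
    intro r hr
    have h1 := congrArg (fun y : L => (y : ℂ)) (hr ⟨x₀, hx₀⟩)
    simp only [coe_stab_smul, ZeroMemClass.coe_zero] at h1
    have h2 : (((r : stabAlg L) : integralClosure ℤ ℂ) : ℂ) = 0 :=
      (mul_eq_zero.mp h1).resolve_right hx₀0
    have h3 : r = 0 := Subtype.ext (Subtype.ext h2)
    rw [h3, map_zero]
  obtain ⟨π, hπ0, hπ⟩ := exists_eigenfunctional θ hmax hfaith
  -- the period map, with values in `L`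
  let P : Additive (Gamma0 N) →+ L := (periodMap N g).rangeRestrict
  have hPsurj : Function.Surjective P := (periodMap N g).rangeRestrict_surjective
  have hPcoe : ∀ γ, ((P γ : L) : ℂ) = periodMap N g γ := fun γ => rfl
  refine ⟨π.comp P, ?_, ⟨?_, ?_⟩, ?_⟩
  · intro h0
    apply hπ0
    refine AddMonoidHom.ext fun y => ?_
    obtain ⟨γ, rfl⟩ := hPsurj y
    exact congrArg (fun φ : Additive (Gamma0 N) →+ F => φ γ) h0
  · intro γ hγ
    have hpar := (mem_parabolicHoms_iff (R := ℂ)).mp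
      (Fermat.Agent.S21.H381.periodMap_mem_parabolicHoms g) γ hγ
    have hP0 : P (Additive.ofMul γ) = 0 := Subtype.ext (by rw [hPcoe, hpar]; rfl)
    rw [AddMonoidHom.comp_apply, hP0, map_zero]
  · intro γ hfin
    obtain ⟨k, hk, hγ⟩ := isOfFinOrder_iff_pow_eq_one.mp hfin
    have hP0 : P (Additive.ofMul γ) = 0 :=
      Subtype.ext (by rw [hPcoe, occ_periodMap_eq_zero_of_pow g hk hγ]; rfl)
    rw [AddMonoidHom.comp_apply, hP0, map_zero]
  · intro ℓ hℓ hℓN a ha γ
    have haL : a ∈ stabAlg L := by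
      intro x hx
      rw [ha]
      exact qCoeff_mul_mem_perLattice hg hℓ.out hℓN hx
    -- the transfer of `P` is `a • P`
    have hTP : heckeTransfer hℓN P γ = (⟨a, haL⟩ : stabAlg L) • P γ := by
      apply Subtype.ext
      rw [coe_stab_smul, hPcoe]
      have h1 := periodMap_heckeTLin hℓ.out hℓN g
      rw [heckeTLin_eq_smul hg hℓ.out hℓN, Fermat.Agent.S21.H381.periodMap_smul] at h1
      have h2 := congrArg (fun φ : Additive (Gamma0 N) →+ ℂ => φ γ) h1
      simp only [AddMonoidHom.smul_apply, smul_eq_mul] at h2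
      show ((heckeTransfer hℓN P γ : L) : ℂ) = (a : ℂ) * periodMap N g γ
      rw [ha, h2]
      have h3 : (periodMap N g) = (L.subtype).comp P := rfl
      rw [h3, heckeTransfer_comp]
      rfl
    rw [heckeTransfer_comp, AddMonoidHom.comp_apply, hTP, hπ, AddMonoidHom.comp_apply]
    rfl

end EigenChar

/-- **Block OCC** of row S41. -/
theorem occ : Spec.OccStatement := by
  intro W p N q' _ hp hq' hq'N f 𝔪 hf hmax hpm hcong hLR
  classical
  let _ : Field (integralClosure ℤ ℂ ⧸ 𝔪) := Ideal.Quotient.field 𝔪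
  let ψ : integralClosure ℤ ℂ →+* (integralClosure ℤ ℂ ⧸ 𝔪) := Ideal.Quotient.mk 𝔪
  have hpk : ((p : ℕ) : integralClosure ℤ ℂ ⧸ 𝔪) = 0 := by
    have h : ψ (p : integralClosure ℤ ℂ) = 0 := Ideal.Quotient.eq_zero_iff_mem.mpr hpm
    rwa [map_natCast] at h
  have : Fact p.Prime := ⟨hp⟩
  have : CharP (integralClosure ℤ ℂ ⧸ 𝔪) p := (CharP.charP_iff_prime_eq_zero hp).mpr hpk
  let _ : Algebra (ZMod p) (integralClosure ℤ ℂ ⧸ 𝔪) := ZMod.algebra _ p
  obtain ⟨χ, hχ0, hχc, hχe⟩ := occ_exists_eigenChar hf hp ψ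
  -- a point where `χ` does not vanish, and a functional detecting it
  obtain ⟨γ₀, hγ₀⟩ : ∃ γ₀, χ γ₀ ≠ 0 := by
    by_contra h
    push Not at h
    exact hχ0 (AddMonoidHom.ext h)
  obtain ⟨φ, hφ⟩ : ∃ φ : Module.Dual (ZMod p) (integralClosure ℤ ℂ ⧸ 𝔪), φ (χ γ₀) ≠ 0 := by
    by_contra hcon
    push Not at hcon
    exact hγ₀ ((Module.forall_dual_apply_eq_zero_iff (ZMod p) _).mp hcon)
  -- the key computation: eigenvalue in the prime field
  have key : ∀ (ℓ : ℕ) [Fact ℓ.Prime] (hℓN : ¬ ℓ ∣ N) (a : integralClosure ℤ ℂ) (c : ZMod p),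
      (a : ℂ) = qCoeff ⇑f ℓ → ψ a = algebraMap (ZMod p) (integralClosure ℤ ℂ ⧸ 𝔪) c →
      heckeTransfer hℓN (φ.toAddMonoidHom.comp χ) = c • (φ.toAddMonoidHom.comp χ) := by
    intro ℓ _ hℓN a c ha hc
    rw [heckeTransfer_comp]
    refine AddMonoidHom.ext fun γ => ?_
    rw [AddMonoidHom.comp_apply, hχe ℓ hℓN a ha γ, hc, ← Algebra.smul_def]
    show φ (c • χ γ) = c • φ (χ γ)
    exact map_smul φ c (χ γ)
  -- the eigenvalue at `q'`
  obtain ⟨aq, haq, haq2⟩ := hLR
  have hsq : ψ aq ^ 2 = (ψ ((q' : integralClosure ℤ ℂ) + 1)) ^ 2 := by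
    have h : ψ (aq ^ 2 - ((q' : integralClosure ℤ ℂ) + 1) ^ 2) = 0 :=
      Ideal.Quotient.eq_zero_iff_mem.mpr haq2
    rw [map_sub, map_pow, map_pow, sub_eq_zero] at h
    exact h
  have hq1 : ψ ((q' : integralClosure ℤ ℂ) + 1)
      = algebraMap (ZMod p) (integralClosure ℤ ℂ ⧸ 𝔪) ((q' : ZMod p) + 1) := by
    rw [map_add, map_add, map_natCast, map_natCast, map_one, map_one]
  obtain ⟨μ, hμ2, hμ⟩ : ∃ μ : ZMod p, μ ^ 2 = ((q' : ZMod p) + 1) ^ 2 ∧
      ψ aq = algebraMap (ZMod p) (integralClosure ℤ ℂ ⧸ 𝔪) μ := by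
    rcases sq_eq_sq_iff_eq_or_eq_neg.mp hsq with h | h
    · exact ⟨(q' : ZMod p) + 1, rfl, by rw [h, hq1]⟩
    · exact ⟨-((q' : ZMod p) + 1), by ring, by rw [h, hq1, map_neg]⟩
  refine ⟨φ.toAddMonoidHom.comp χ, μ, ?_, ⟨?_, ?_⟩, ?_, hμ2, ?_⟩
  · intro h0
    apply hφ
    have := congrArg (fun y : Additive (Gamma0 N) →+ ZMod p => y γ₀) h0
    simpa using this
  · intro γ hγ
    rw [AddMonoidHom.comp_apply, hχc.1 γ hγ, map_zero]
  · intro γ hfin
    rw [AddMonoidHom.comp_apply, hχc.2 γ hfin, map_zero]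
  · intro ℓ hℓ hℓN hgood hℓp
    obtain ⟨a, ha, ham⟩ := hcong ℓ hℓ.out hgood hℓN hℓp
    refine key ℓ hℓN a _ ha ?_
    have h : ψ a = ψ ((W.apOfModel ℓ : ℤ) : integralClosure ℤ ℂ) :=
      Ideal.Quotient.eq.mpr ham
    rw [h, map_intCast, map_intCast]
  · have : Fact q'.Prime := ⟨hq'⟩
    exact key q' hq'N aq μ haq hμ

end Fermat.Agent.S41.H341
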