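import Mathlib

/-!
# Row S41, block IH' (helper341, 2nd owner): the orbit-sum lemma (L4)

`U` a finite commutative group, `w ∈ U` with `p ∣ orderOf w` (`p` odd), `F` an abelian group killed
by `p`, `Fn : U → F` with `Fn (ε * w) = Fn ε - τ`.  Then `∑ ε, Fn ε = 0`.
(Cycle decomposition of the permutation `ε ↦ ε * w`; on a cycle of length `P`, `p ∣ P`, the sum is
`P • Fn ε - (P (P - 1) / 2) • τ = 0`.)  Mathlib only.
-/

set_option autoImplicit false

namespace Fermat.Agent.S41.H341

/-- Every point of a finite type is periodic for a permutation. -/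
theorem ih_isPeriodicPt {ι : Type*} [Finite ι] (π : Equiv.Perm ι) (i : ι) :
    i ∈ Function.periodicPts π := by
  classical
  have := Fintype.ofFinite ι
  refine Function.mk_mem_periodicPts (orderOf_pos π) ?_
  show π^[orderOf π] i = i
  rw [Equiv.Perm.iterate_eq_pow, pow_orderOf_eq_one]
  rfl

/-- If the sum of `f` over every cycle of `π` vanishes, then the total sum vanishes. -/
theorem ih_sum_eq_zero_of_cycles {ι : Type*} [Fintype ι] [DecidableEq ι] {A : Type*}
    [AddCommMonoid A] (π : Equiv.Perm ι) (f : ι → A)
    (h : ∀ i, ∑ t ∈ Finset.range (Function.minimalPeriod π i), f (π^[t] i) = 0) :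
    ∑ i, f i = 0 := by
  suffices H : ∀ S : Finset ι, (∀ i ∈ S, π i ∈ S) → ∑ i ∈ S, f i = 0 from
    H Finset.univ (fun i _ => Finset.mem_univ _)
  intro S
  induction S using Finset.strongInduction with
  | H S ih =>
    intro hS
    rcases S.eq_empty_or_nonempty with rfl | ⟨i, hi⟩
    · simp
    · set P := Function.minimalPeriod π i with hP
      have hm : 0 < P := Function.minimalPeriod_pos_of_mem_periodicPts (ih_isPeriodicPt π i)
      have hiter : ∀ t : ℕ, π^[t] i ∈ S := by
        intro t
        induction t with
        | zero => exact hi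
        | succ t iht =>
          rw [Function.iterate_succ_apply']
          exact hS _ iht
      set C : Finset ι := (Finset.range P).image (fun t => π^[t] i) with hC
      have hCS : C ⊆ S := by
        intro j hj
        obtain ⟨t, -, rfl⟩ := Finset.mem_image.1 hj
        exact hiter t
      have hiC : i ∈ C := Finset.mem_image.2 ⟨0, Finset.mem_range.2 hm, rfl⟩
      have hPi : π^[P] i = i := Function.iterate_minimalPeriod
      -- `C` is stable under `π`
      have hCst : ∀ j ∈ C, π j ∈ C := by
        intro j hj
        obtain ⟨t, ht, rfl⟩ := Finset.mem_image.1 hj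
        rw [Finset.mem_range] at ht
        rcases Nat.lt_or_ge (t + 1) P with h1 | h1
        · exact Finset.mem_image.2 ⟨t + 1, Finset.mem_range.2 h1,
            Function.iterate_succ_apply' _ _ _⟩
        · have ht1 : t + 1 = P := by omega
          refine Finset.mem_image.2 ⟨0, Finset.mem_range.2 hm, ?_⟩
          have e1 : π (π^[t] i) = π^[t + 1] i := (Function.iterate_succ_apply' _ _ _).symm
          show i = π (π^[t] i)
          rw [e1, ht1, hPi]
      -- `S \ C` is stable under `π`
      have hSC : ∀ j ∈ S \ C, π j ∈ S \ C := by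
        intro j hj
        rw [Finset.mem_sdiff] at hj ⊢
        refine ⟨hS j hj.1, fun hπj => hj.2 ?_⟩
        -- `j = π^{-1} (π j)` and `C` is stable under `π⁻¹` by finiteness
        obtain ⟨t, ht, htj⟩ := Finset.mem_image.1 hπj
        rw [Finset.mem_range] at ht
        rcases Nat.eq_zero_or_pos t with rfl | htpos
        · refine Finset.mem_image.2 ⟨P - 1, Finset.mem_range.2 (by omega), ?_⟩
          apply π.injective
          have e1 : π (π^[P - 1] i) = π^[P - 1 + 1] i :=
            (Function.iterate_succ_apply' _ _ _).symm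
          show π (π^[P - 1] i) = π j
          rw [e1, ← htj, show P - 1 + 1 = P by omega, hPi]
          rfl
        · refine Finset.mem_image.2 ⟨t - 1, Finset.mem_range.2 (by omega), ?_⟩
          apply π.injective
          have e1 : π (π^[t - 1] i) = π^[t - 1 + 1] i :=
            (Function.iterate_succ_apply' _ _ _).symm
          show π (π^[t - 1] i) = π j
          rw [e1, ← htj, show t - 1 + 1 = t by omega]
      have hsum : ∑ j ∈ C, f j = 0 := by
        rw [hC, Finset.sum_image]
        · exact h i
        · intro s hs t ht hst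
          rw [Finset.coe_range, Set.mem_Iio] at hs ht
          exact (Function.iterate_injOn_Iio_minimalPeriod (f := ⇑π) (x := i))
            (Set.mem_Iio.2 hs) (Set.mem_Iio.2 ht) hst
      have hlt : S \ C ⊂ S := by
        refine Finset.ssubset_iff_subset_ne.2 ⟨Finset.sdiff_subset, fun heq => ?_⟩
        have : i ∈ S \ C := by rw [heq]; exact hi
        exact (Finset.mem_sdiff.1 this).2 hiC
      have := ih (S \ C) hlt hSC
      rw [← Finset.sum_sdiff hCS, this, hsum, add_zero]

/-- `∑_{t < P} t = P (P - 1) / 2` is divisible by an odd `p` dividing `P`. -/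
theorem ih_dvd_sum_range {p P : ℕ} (hodd : ¬ 2 ∣ p) (hpP : p ∣ P) :
    p ∣ ∑ t ∈ Finset.range P, t := by
  rw [Finset.sum_range_id]
  have h2 : P * (P - 1) / 2 * 2 = P * (P - 1) := Nat.div_mul_cancel (by
    rcases Nat.even_or_odd P with h | h
    · exact (even_iff_two_dvd.mp h).mul_right _
    · rcases Nat.eq_zero_or_pos P with rfl | hpos
      · simp
      · have : Even (P - 1) := Nat.Odd.sub_odd h odd_one
        exact (even_iff_two_dvd.mp this).mul_left _)
  have hcop : Nat.Coprime p 2 := by
    rw [Nat.coprime_comm, Nat.Prime.coprime_iff_not_dvd Nat.prime_two]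
    exact hodd
  have : p ∣ P * (P - 1) / 2 * 2 := by rw [h2]; exact hpP.mul_right _
  exact hcop.dvd_of_dvd_mul_right this

/-- **Orbit-sum lemma (L4).** -/
theorem ih_orbit_sum {U : Type*} [CommGroup U] [Fintype U] {F : Type*} [AddCommGroup F]
    {p : ℕ} (hodd : ¬ 2 ∣ p) (hF : ∀ x : F, p • x = 0) (w : U) (hw : p ∣ orderOf w)
    (Fn : U → F) (τ : F) (hFn : ∀ ε : U, Fn (ε * w) = Fn ε - τ) :
    ∑ ε : U, Fn ε = 0 := by
  classical
  set π : Equiv.Perm U := Equiv.mulRight w with hπ
  have hiter : ∀ (t : ℕ) (ε : U), π^[t] ε = ε * w ^ t := by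
    intro t
    induction t with
    | zero => intro ε; simp
    | succ t ih =>
      intro ε
      rw [Function.iterate_succ_apply', ih]
      show ε * w ^ t * w = _
      rw [pow_succ, mul_assoc]
  have hval : ∀ (t : ℕ) (ε : U), Fn (ε * w ^ t) = Fn ε - t • τ := by
    intro t
    induction t with
    | zero => intro ε; simp
    | succ t ih =>
      intro ε
      rw [pow_succ, ← mul_assoc, hFn, ih, succ_nsmul]
      abel
  have hkill : ∀ (n : ℕ) (x : F), p ∣ n → n • x = 0 := by
    rintro n x ⟨k, rfl⟩
    rw [mul_comm, mul_smul, hF, smul_zero]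
  refine ih_sum_eq_zero_of_cycles π Fn fun ε => ?_
  set P := Function.minimalPeriod π ε with hP
  have hPε : π^[P] ε = ε := Function.iterate_minimalPeriod
  have hwP : w ^ P = 1 := by
    rw [hiter] at hPε
    exact mul_eq_left.mp hPε
  have hpP : p ∣ P := hw.trans (orderOf_dvd_of_pow_eq_one hwP)
  simp only [hiter, hval]
  rw [Finset.sum_sub_distrib, Finset.sum_const, Finset.card_range, ← Finset.sum_smul,
    hkill P _ hpP, hkill _ _ (ih_dvd_sum_range hodd hpP), sub_zero]

end Fermat.Agent.S41.H341
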