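import Mathlib
import Fermat.Agent.S41.H585.Main

/-!
# Row S41, block IH' (helper341, 2nd owner): the unit relation (L1)

`Φ : Γ₀(N)[1/q] → K` a homomorphism to a commutative group which is trivial on `u(1) = T`.
If `g, g' ∈ Γ₀(N)` have the same lower left entry `C ≠ 0` and `g'₁₁ ≡ q^(2k) g₁₁ mod C`, then
`Φ(g') = Φ(g) · Φ(h)^(-2k)`, `h = diag(q, 1/q)`.

Proof: with `v = q^k`, `w = v²`, `C x = e' - w e`, `n = a b' - a' w b - a a' x` one has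
`h(v) g' u(-x) h(v) = u(n) g` in `SL(2, ℚ)`.
-/

set_option autoImplicit false

namespace Fermat.Agent.S41.H341

open Matrix CongruenceSubgroup
open scoped MatrixGroups
open Fermat.Agent.S41.H585

/-- `diag(q^k, q^(-k))`. -/
def ihDiag (q k : ℕ) (hq0 : q ≠ 0) : SL(2, ℚ) :=
  ⟨!![(q : ℚ) ^ k, 0; 0, ((q : ℚ) ^ k)⁻¹], by
    have h : (q : ℚ) ^ k ≠ 0 := pow_ne_zero _ (Nat.cast_ne_zero.mpr hq0)
    rw [Matrix.det_fin_two_of]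
    field_simp
    ring⟩

theorem ihDiag_coe (q k : ℕ) (hq0 : q ≠ 0) :
    ((ihDiag q k hq0 : SL(2, ℚ)) : Matrix (Fin 2) (Fin 2) ℚ) =
      !![(q : ℚ) ^ k, 0; 0, ((q : ℚ) ^ k)⁻¹] := rfl

theorem ihDiag_mem (N q k : ℕ) (hq0 : q ≠ 0) : ihDiag q k hq0 ∈ Delta N q := by
  rw [mem_Delta]
  refine ⟨fun i j => ?_, 0, isRInt_zero q, by simp [ihDiag_coe]⟩
  fin_cases i <;> fin_cases j
  · simpa [ihDiag_coe] using isRInt_int q ((q : ℤ) ^ k)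
  · simpa [ihDiag_coe] using isRInt_zero q
  · simpa [ihDiag_coe] using isRInt_zero q
  · simpa [ihDiag_coe] using isRInt_inv_pow q hq0 k

/-- `diag(q^k, q^(-k))` as an element of `Γ₀(N)[1/q]`. -/
def ihDiagD (N q k : ℕ) (hq0 : q ≠ 0) : Delta N q := ⟨ihDiag q k hq0, ihDiag_mem N q k hq0⟩

theorem ihDiagD_zero (N q : ℕ) (hq0 : q ≠ 0) : ihDiagD N q 0 hq0 = 1 := by
  apply Subtype.ext
  apply Subtype.ext
  show !![(q : ℚ) ^ 0, 0; 0, ((q : ℚ) ^ 0)⁻¹] = 1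
  ext i j
  fin_cases i <;> fin_cases j <;> simp

theorem ihDiagD_succ (N q k : ℕ) (hq0 : q ≠ 0) :
    ihDiagD N q (k + 1) hq0 = ihDiagD N q k hq0 * ihDiagD N q 1 hq0 := by
  apply Subtype.ext
  apply Subtype.ext
  show !![(q : ℚ) ^ (k + 1), 0; 0, ((q : ℚ) ^ (k + 1))⁻¹] =
    !![(q : ℚ) ^ k, 0; 0, ((q : ℚ) ^ k)⁻¹] * !![(q : ℚ) ^ 1, 0; 0, ((q : ℚ) ^ 1)⁻¹]
  rw [Matrix.mul_fin_two]
  ext i j
  fin_cases i <;> fin_cases j <;> simp [pow_succ, mul_comm]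

theorem ihDiagD_eq_pow (N q k : ℕ) (hq0 : q ≠ 0) :
    ihDiagD N q k hq0 = ihDiagD N q 1 hq0 ^ k := by
  induction k with
  | zero => rw [pow_zero, ihDiagD_zero]
  | succ k ih => rw [ihDiagD_succ, ih, pow_succ]

/-- `T = u(1)` as an element of `Γ₀(N)`. -/
def ihT (N : ℕ) : Gamma0 N := ⟨ModularGroup.T, by
  rw [Gamma0_mem]
  simp [ModularGroup.T]⟩

theorem ihT_zpow_coe (N : ℕ) (n : ℤ) :
    (((ihT N ^ n : Gamma0 N) : SL(2, ℤ)) : Matrix (Fin 2) (Fin 2) ℤ) = !![1, n; 0, 1] := by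
  rw [Subgroup.coe_zpow]
  exact ModularGroup.coe_T_zpow n

theorem ih_J1_coe {N : ℕ} (γ : Gamma0 N) :
    ((J1 N γ : SL(2, ℚ)) : Matrix (Fin 2) (Fin 2) ℚ) =
      !![((γ : SL(2, ℤ)) 0 0 : ℚ), ((γ : SL(2, ℤ)) 0 1 : ℚ);
         ((γ : SL(2, ℤ)) 1 0 : ℚ), ((γ : SL(2, ℤ)) 1 1 : ℚ)] := by
  ext i j
  fin_cases i <;> fin_cases j <;> rfl

/-- The matrix identity `h(v) g' u(-x) h(v) = u(n) g`. -/
theorem ih_unit_identity {N q : ℕ} [hq : Fact q.Prime] (hq0 : q ≠ 0) (k : ℕ) (g g' : Gamma0 N)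
    (hC : (g' : SL(2, ℤ)) 1 0 = (g : SL(2, ℤ)) 1 0) (hC0 : (g : SL(2, ℤ)) 1 0 ≠ 0) (x : ℤ)
    (hx : (g' : SL(2, ℤ)) 1 1 - (q : ℤ) ^ (2 * k) * (g : SL(2, ℤ)) 1 1 = (g : SL(2, ℤ)) 1 0 * x) :
    ihDiagD N q k hq0 * j1 N q g' * j1 N q (ihT N ^ (-x)) * ihDiagD N q k hq0 =
      j1 N q (ihT N ^ ((g : SL(2, ℤ)) 0 0 * (g' : SL(2, ℤ)) 0 1
        - (g' : SL(2, ℤ)) 0 0 * (q : ℤ) ^ (2 * k) * (g : SL(2, ℤ)) 0 1
        - (g : SL(2, ℤ)) 0 0 * (g' : SL(2, ℤ)) 0 0 * x)) * j1 N q g := by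
  apply Subtype.ext
  apply Subtype.ext
  simp only [Subgroup.coe_mul, Matrix.SpecialLinearGroup.coe_mul, coe_j1, ih_J1_coe, ihDiagD,
    ihDiag_coe, ihT_zpow_coe]
  have h1 : ((g : SL(2, ℤ)) 0 0 : ℚ) * (g : SL(2, ℤ)) 1 1
      - (g : SL(2, ℤ)) 0 1 * (g : SL(2, ℤ)) 1 0 = 1 := by
    have := (g : SL(2, ℤ)).det_coe
    rw [Matrix.det_fin_two] at this
    exact_mod_cast this
  have h2 : ((g' : SL(2, ℤ)) 0 0 : ℚ) * (g' : SL(2, ℤ)) 1 1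
      - (g' : SL(2, ℤ)) 0 1 * (g : SL(2, ℤ)) 1 0 = 1 := by
    have := (g' : SL(2, ℤ)).det_coe
    rw [Matrix.det_fin_two, hC] at this
    exact_mod_cast this
  have h3 : ((g' : SL(2, ℤ)) 1 1 : ℚ) - ((q : ℚ) ^ k) ^ 2 * (g : SL(2, ℤ)) 1 1
      = (g : SL(2, ℤ)) 1 0 * x := by
    have := congrArg (Int.cast : ℤ → ℚ) hx
    push_cast at this
    rw [← this]
    ring
  have hv : (q : ℚ) ^ k ≠ 0 := pow_ne_zero _ (Nat.cast_ne_zero.mpr hq0)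
  have hC0' : ((g : SL(2, ℤ)) 1 0 : ℚ) ≠ 0 := by exact_mod_cast hC0
  rw [hC]
  generalize ((g : SL(2, ℤ)) 0 0 : ℤ) = a at *
  generalize ((g : SL(2, ℤ)) 0 1 : ℤ) = b at *
  generalize ((g : SL(2, ℤ)) 1 0 : ℤ) = C at *
  generalize ((g : SL(2, ℤ)) 1 1 : ℤ) = e at *
  generalize ((g' : SL(2, ℤ)) 0 0 : ℤ) = a' at *
  generalize ((g' : SL(2, ℤ)) 0 1 : ℤ) = b' at *
  generalize ((g' : SL(2, ℤ)) 1 1 : ℤ) = e' at *
  simp only [Matrix.mul_fin_two]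
  ext i j
  fin_cases i <;> fin_cases j
  · simp
    have hw : (q : ℚ) ^ (2 * k) = ((q : ℚ) ^ k) ^ 2 := by ring
    rw [hw]
    linear_combination (a : ℚ) * h2 - (a' : ℚ) * ((q : ℚ) ^ k) ^ 2 * h1 - (a : ℚ) * a' * h3
  · simp
    have hw : (q : ℚ) ^ (2 * k) = ((q : ℚ) ^ k) ^ 2 := by ring
    rw [hw]
    have e1 : (-((q : ℚ) ^ k * a' * x) + (q : ℚ) ^ k * b') * ((q : ℚ) ^ k)⁻¹ = b' - a' * x := by
      field_simp
      ring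
    rw [e1]
    apply mul_left_cancel₀ hC0'
    linear_combination (1 - (a' : ℚ) * ((q : ℚ) ^ k) ^ 2 * e) * h1 + ((a : ℚ) * e - 1) * h2
      + ((a' : ℚ) - a * a' * e) * h3
  · simp
    field_simp
  · simp
    field_simp
    linear_combination h3

/-- **Unit relation (L1)**, multiplicative form. -/
theorem ih_unit_rel_mul {N q : ℕ} [hq : Fact q.Prime] {K : Type*} [CommGroup K]
    (Φ : Delta N q →* K) (hT : Φ (j1 N q (ihT N)) = 1) (k : ℕ) (g g' : Gamma0 N)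
    (hC : (g' : SL(2, ℤ)) 1 0 = (g : SL(2, ℤ)) 1 0) (hC0 : (g : SL(2, ℤ)) 1 0 ≠ 0)
    (hdvd : (g : SL(2, ℤ)) 1 0 ∣
      (g' : SL(2, ℤ)) 1 1 - (q : ℤ) ^ (2 * k) * (g : SL(2, ℤ)) 1 1) :
    Φ (j1 N q g') * Φ (ihDiagD N q 1 hq.out.ne_zero) ^ (2 * k) = Φ (j1 N q g) := by
  obtain ⟨x, hx⟩ := hdvd
  have h := congrArg Φ (ih_unit_identity hq.out.ne_zero k g g' hC hC0 x hx)
  simp only [map_mul, map_zpow, hT, _root_.one_zpow, mul_one, one_mul] at h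
  rw [ihDiagD_eq_pow, map_pow] at h
  rw [← h, two_mul, pow_add]
  ac_rfl

/-- The unit relation for an additive character `φ` of `Γ₀(N)` (with twist `t`): the form in which
(L1) is consumed by IH'. -/
def IsUnitRel {N : ℕ} {F : Type*} [AddCommGroup F] (q : ℕ) (φ : Additive (Gamma0 N) →+ F)
    (t : F) : Prop :=
  ∀ (k : ℕ) (g g' : Gamma0 N), (g' : SL(2, ℤ)) 1 0 = (g : SL(2, ℤ)) 1 0 →
    (g : SL(2, ℤ)) 1 0 ≠ 0 →
    (g : SL(2, ℤ)) 1 0 ∣ (g' : SL(2, ℤ)) 1 1 - (q : ℤ) ^ (2 * k) * (g : SL(2, ℤ)) 1 1 →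
    φ (Additive.ofMul g') = φ (Additive.ofMul g) - (2 * k) • t

/-- **Unit relation (L1)**: a character `φ` of `Γ₀(N)` which kills `T` and extends to
`Γ₀(N)[1/q]` satisfies the unit relation. -/
theorem ih_isUnitRel {N q : ℕ} [hq : Fact q.Prime] {F : Type*} [AddCommGroup F]
    (φ : Additive (Gamma0 N) →+ F) (Φ : Delta N q →* Multiplicative F)
    (hΦ : ∀ γ : Gamma0 N, Φ (j1 N q γ) = Multiplicative.ofAdd (φ (Additive.ofMul γ)))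
    (hT : φ (Additive.ofMul (ihT N)) = 0) :
    IsUnitRel q φ (Multiplicative.toAdd (Φ (ihDiagD N q 1 hq.out.ne_zero))) := by
  intro k g g' hC hC0 hdvd
  have h := ih_unit_rel_mul Φ (by rw [hΦ, hT]; rfl) k g g' hC hC0 hdvd
  rw [hΦ, hΦ] at h
  have h' := congrArg Multiplicative.toAdd h
  rw [toAdd_mul, toAdd_pow, toAdd_ofAdd, toAdd_ofAdd] at h'
  rw [← h']
  abel

end Fermat.Agent.S41.H341
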