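import Mathlib
import Fermat.Agent.S41.H281.Eis
import Fermat.Agent.S41.H341.OrbitSum
import Fermat.Agent.S41.H341.UnitRel

/-!
# Row S41, block IH' (helper341, 2nd owner): Hecke bottom rows (L2) and the theorem IH' (L3)

`φ : Γ₀(N) → F` a character satisfying the unit relation `IsUnitRel q φ t` (`F` killed by the odd
number `p`), `ℓ ∤ N` a prime, `γ = [[a, b], [c, d]] ∈ Γ₀(N)` and `κ` with
`c ∣ ℓ - 1`, `c ∣ q^(2κ) - 1`, `p ∣ orderOf (q^(2κ) mod ℓ)`.  Then `(T_ℓ φ)(γ) = 2 φ(γ)`.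
-/

set_option autoImplicit false

namespace Fermat.Agent.S41.H341

open CongruenceSubgroup Matrix.SpecialLinearGroup
open Fermat.Agent.S29.H642 Fermat.Agent.S41.H281
open scoped MatrixGroups

variable {ℓ : ℕ} [hℓ : Fact ℓ.Prime] {N : ℕ}

/-! ## (L2) bottom rows of `hElt` -/

theorem ih_det_eq (g : SL(2, ℤ)) : g 0 0 * g 1 1 - g 0 1 * g 1 0 = 1 := by
  have := g.det_coe
  rwa [Matrix.det_fin_two] at this

/-- `x = ∞`: the bottom row of `γ_∞` is `(c, e)` with `ℓ e = d - k c`. -/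
theorem ih_row_infty (hℓN : ¬ ℓ ∣ N) (γ : Gamma0 N) (hℓc : ¬ (ℓ : ℤ) ∣ (γ : SL(2, ℤ)) 1 0) :
    ((hElt hℓN γ OnePoint.infty : Gamma0 N) : SL(2, ℤ)) 1 0 = (γ : SL(2, ℤ)) 1 0 ∧
    ∃ k : ℤ, (ℓ : ℤ) * ((hElt hℓN γ OnePoint.infty : Gamma0 N) : SL(2, ℤ)) 1 1 =
      (γ : SL(2, ℤ)) 1 1 - k * (γ : SL(2, ℤ)) 1 0 := by
  have h := hElt_spec_int hℓN γ OnePoint.infty
  generalize hPerm ℓ (γ : SL(2, ℤ)) OnePoint.infty = y at h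
  have h10 := congrFun (congrFun h 1) 0
  have h11 := congrFun (congrFun h 1) 1
  induction y using OnePoint.rec with
  | infty =>
    simp [Matrix.mul_apply, Fin.sum_univ_two, -ZMod.natCast_val] at h10
    exact absurd ⟨_, h10.trans (mul_comm _ _)⟩ hℓc
  | coe k =>
    simp [Matrix.mul_apply, Fin.sum_univ_two, -ZMod.natCast_val] at h10 h11
    refine ⟨h10.symm, (k.val : ℤ), ?_⟩
    rw [h11, h10]
    ring

/-- `x = j`, `ℓ ∣ a + j c`: the bottom row of `γ_j` is `(c, ℓ d)`. -/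
theorem ih_row_coe_dvd (hℓN : ¬ ℓ ∣ N) (γ : Gamma0 N) (j : ZMod ℓ)
    (hj : (ℓ : ℤ) ∣ (γ : SL(2, ℤ)) 0 0 + (j.val : ℤ) * (γ : SL(2, ℤ)) 1 0) :
    ((hElt hℓN γ (j : OnePoint (ZMod ℓ)) : Gamma0 N) : SL(2, ℤ)) 1 0 = (γ : SL(2, ℤ)) 1 0 ∧
    ((hElt hℓN γ (j : OnePoint (ZMod ℓ)) : Gamma0 N) : SL(2, ℤ)) 1 1 =
      (ℓ : ℤ) * (γ : SL(2, ℤ)) 1 1 := by
  have hℓ0 : (ℓ : ℤ) ≠ 0 := by exact_mod_cast hℓ.out.ne_zero
  have h := hElt_spec_int hℓN γ (j : OnePoint (ZMod ℓ))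
  generalize hPerm ℓ (γ : SL(2, ℤ)) (j : OnePoint (ZMod ℓ)) = y at h
  have hdet := ih_det_eq ((hElt hℓN γ (j : OnePoint (ZMod ℓ)) : Gamma0 N) : SL(2, ℤ))
  have h00 := congrFun (congrFun h 0) 0
  have h10 := congrFun (congrFun h 1) 0
  have h11 := congrFun (congrFun h 1) 1
  induction y using OnePoint.rec with
  | infty =>
    simp [Matrix.mul_apply, Fin.sum_univ_two, -ZMod.natCast_val] at h10 h11
    refine ⟨?_, h11.symm⟩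
    apply mul_left_cancel₀ hℓ0
    rw [h10]
    ring
  | coe k =>
    exfalso
    simp [Matrix.mul_apply, Fin.sum_univ_two, -ZMod.natCast_val] at h00 h10
    have h1 : (ℓ : ℤ) ∣ 1 := by
      rw [← hdet]
      refine dvd_sub (Dvd.dvd.mul_right ?_ _) (Dvd.dvd.mul_left ⟨_, h10.symm⟩ _)
      rw [← h00]
      exact hj
    exact hℓ.out.one_lt.ne' (by exact_mod_cast Int.eq_one_of_dvd_one (by positivity) h1)

/-- `x = j`, `ℓ ∤ a + j c`: the bottom row of `γ_j` is `(ℓ c, e)`, `e = d - k c`,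
`e (a + j c) ≡ 1 mod ℓ`. -/
theorem ih_row_coe_not_dvd (hℓN : ¬ ℓ ∣ N) (γ : Gamma0 N) (j : ZMod ℓ)
    (hj : ¬ (ℓ : ℤ) ∣ (γ : SL(2, ℤ)) 0 0 + (j.val : ℤ) * (γ : SL(2, ℤ)) 1 0) :
    ((hElt hℓN γ (j : OnePoint (ZMod ℓ)) : Gamma0 N) : SL(2, ℤ)) 1 0 =
      (ℓ : ℤ) * (γ : SL(2, ℤ)) 1 0 ∧
    (∃ k : ℤ, ((hElt hℓN γ (j : OnePoint (ZMod ℓ)) : Gamma0 N) : SL(2, ℤ)) 1 1 =
      (γ : SL(2, ℤ)) 1 1 - k * (γ : SL(2, ℤ)) 1 0) ∧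
    (ℓ : ℤ) ∣ ((hElt hℓN γ (j : OnePoint (ZMod ℓ)) : Gamma0 N) : SL(2, ℤ)) 1 1 *
      ((γ : SL(2, ℤ)) 0 0 + (j.val : ℤ) * (γ : SL(2, ℤ)) 1 0) - 1 := by
  have hℓ0 : (ℓ : ℤ) ≠ 0 := by exact_mod_cast hℓ.out.ne_zero
  have h := hElt_spec_int hℓN γ (j : OnePoint (ZMod ℓ))
  generalize hPerm ℓ (γ : SL(2, ℤ)) (j : OnePoint (ZMod ℓ)) = y at h
  have hdet := ih_det_eq ((hElt hℓN γ (j : OnePoint (ZMod ℓ)) : Gamma0 N) : SL(2, ℤ))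
  have h00 := congrFun (congrFun h 0) 0
  have h10 := congrFun (congrFun h 1) 0
  have h11 := congrFun (congrFun h 1) 1
  induction y using OnePoint.rec with
  | infty =>
    exfalso
    simp [Matrix.mul_apply, Fin.sum_univ_two, -ZMod.natCast_val] at h00
    exact hj ⟨_, h00.trans (mul_comm _ _)⟩
  | coe k =>
    simp [Matrix.mul_apply, Fin.sum_univ_two, -ZMod.natCast_val] at h00 h10 h11
    refine ⟨h10.symm, ⟨(k.val : ℤ), ?_⟩, ?_⟩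
    · apply mul_left_cancel₀ hℓ0
      rw [← h10] at h11
      linear_combination -h11
    · rw [h00]
      refine ⟨((hElt hℓN γ (j : OnePoint (ZMod ℓ)) : Gamma0 N) : SL(2, ℤ)) 0 1 *
        (γ : SL(2, ℤ)) 1 0, ?_⟩
      rw [← h10] at hdet
      linear_combination hdet

/-! ## (L3) the theorem IH' -/

variable {F : Type*} [AddCommGroup F]

/-- Unit relation with `k = 0`: the value only depends on the bottom row `(C, e mod C)`. -/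
theorem ih_val_eq_of_row {q : ℕ} (φ : Additive (Gamma0 N) →+ F) (t : F) (hUR : IsUnitRel q φ t)
    (γ γ' : Gamma0 N) (hc0 : (γ : SL(2, ℤ)) 1 0 ≠ 0)
    (h10 : (γ' : SL(2, ℤ)) 1 0 = (γ : SL(2, ℤ)) 1 0)
    (h11 : (γ : SL(2, ℤ)) 1 0 ∣ (γ' : SL(2, ℤ)) 1 1 - (γ : SL(2, ℤ)) 1 1) :
    φ (Additive.ofMul γ') = φ (Additive.ofMul γ) := by
  have h := hUR 0 γ γ' h10 hc0 (by simpa using h11)
  simpa using h

theorem ih_sum_onePoint {α : Type*} [Fintype α] (g : OnePoint α → F) :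
    ∑ x : OnePoint α, g x = g OnePoint.infty + ∑ j : α, g (j : OnePoint α) :=
  Fintype.sum_option g

theorem ih_sum_zmod_units (G : ZMod ℓ → F) :
    ∑ x : ZMod ℓ, G x = G 0 + ∑ ε : (ZMod ℓ)ˣ, G (ε : ZMod ℓ) := by
  classical
  rw [← Finset.add_sum_erase Finset.univ G (Finset.mem_univ (0 : ZMod ℓ))]
  congr 1
  rw [Finset.sum_subtype (Finset.univ.erase (0 : ZMod ℓ)) (p := fun x => x ≠ 0)
    (fun x => by simp) G]
  exact (Fintype.sum_equiv unitsEquivNeZero (fun ε : (ZMod ℓ)ˣ => G (ε : ZMod ℓ))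
    (fun x : {x : ZMod ℓ // x ≠ 0} => G x.1) (fun _ => rfl)).symm

/-- **Theorem IH'.** -/
theorem ih_prime (hℓN : ¬ ℓ ∣ N) {q p : ℕ} (φ : Additive (Gamma0 N) →+ F) (t : F)
    (hUR : IsUnitRel q φ t) (hodd : ¬ 2 ∣ p) (hF : ∀ x : F, p • x = 0)
    (γ : Gamma0 N) (κ : ℕ)
    (h1 : (γ : SL(2, ℤ)) 1 0 ∣ (ℓ : ℤ) - 1)
    (h2 : (γ : SL(2, ℤ)) 1 0 ∣ (q : ℤ) ^ (2 * κ) - 1)
    (hqℓ : (q : ZMod ℓ) ≠ 0)
    (h3 : p ∣ orderOf ((q : ZMod ℓ) ^ (2 * κ))) :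
    heckeTransfer hℓN φ (Additive.ofMul γ) = 2 • φ (Additive.ofMul γ) := by
  classical
  have hℓ1 : 1 < ℓ := hℓ.out.one_lt
  have hℓ0 : (ℓ : ℤ) ≠ 0 := by exact_mod_cast hℓ.out.ne_zero
  obtain ⟨m, hm⟩ := h1
  obtain ⟨m2, hm2⟩ := h2
  have hc0 : (γ : SL(2, ℤ)) 1 0 ≠ 0 := by
    intro h
    rw [h, zero_mul] at hm
    have : (ℓ : ℤ) = 1 := by linarith
    exact hℓ1.ne' (by exact_mod_cast this)
  have hℓc : ¬ (ℓ : ℤ) ∣ (γ : SL(2, ℤ)) 1 0 := by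
    intro h
    have h' : (ℓ : ℤ) ∣ 1 := by
      have h'' : (ℓ : ℤ) ∣ (ℓ : ℤ) - ((γ : SL(2, ℤ)) 1 0 * m) :=
        dvd_sub (dvd_refl _) (Dvd.dvd.mul_right h _)
      rwa [← hm, sub_sub_cancel] at h''
    exact hℓ1.ne' (by exact_mod_cast Int.eq_one_of_dvd_one (by positivity) h')
  have hcu : (((γ : SL(2, ℤ)) 1 0 : ℤ) : ZMod ℓ) ≠ 0 := by
    rwa [Ne, ZMod.intCast_zmod_eq_zero_iff_dvd]
  have hcop : IsCoprime (ℓ : ℤ) ((γ : SL(2, ℤ)) 1 0) :=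
    (Nat.prime_iff_prime_int.1 hℓ.out).coprime_iff_not_dvd.2 hℓc
  -- the unit `w = q^(2κ)` of `ZMod ℓ`
  set wU : (ZMod ℓ)ˣ := Units.mk0 ((q : ZMod ℓ) ^ (2 * κ)) (pow_ne_zero _ hqℓ) with hwU
  have hwo : p ∣ orderOf wU := by
    rw [← orderOf_units]
    exact h3
  -- the reparametrisation `j ↦ a + j c`
  set s : ZMod ℓ ≃ ZMod ℓ :=
    (Equiv.mulRight₀ ((((γ : SL(2, ℤ)) 1 0 : ℤ) : ZMod ℓ)) hcu).trans
      (Equiv.addLeft ((((γ : SL(2, ℤ)) 0 0 : ℤ) : ZMod ℓ))) with hs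
  have hs_apply : ∀ j : ZMod ℓ, s j = (((γ : SL(2, ℤ)) 0 0 : ℤ) : ZMod ℓ) +
      j * (((γ : SL(2, ℤ)) 1 0 : ℤ) : ZMod ℓ) := fun j => rfl
  have hcast : ∀ j : ZMod ℓ, (((γ : SL(2, ℤ)) 0 0 + (j.val : ℤ) * (γ : SL(2, ℤ)) 1 0 : ℤ) :
      ZMod ℓ) = s j := by
    intro j
    rw [hs_apply]
    push_cast
    rw [ZMod.natCast_zmod_val]
  have hdvd_iff : ∀ j : ZMod ℓ,
      (ℓ : ℤ) ∣ (γ : SL(2, ℤ)) 0 0 + (j.val : ℤ) * (γ : SL(2, ℤ)) 1 0 ↔ s j = 0 := by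
    intro j
    rw [← hcast, ZMod.intCast_zmod_eq_zero_iff_dvd]
  set f : ZMod ℓ → F := fun j => φ (Additive.ofMul (hElt hℓN γ (j : OnePoint (ZMod ℓ)))) with hf
  -- the term at `∞`
  have hinf : φ (Additive.ofMul (hElt hℓN γ OnePoint.infty)) = φ (Additive.ofMul γ) := by
    obtain ⟨r10, k, r11⟩ := ih_row_infty hℓN γ hℓc
    refine ih_val_eq_of_row φ t hUR γ _ hc0 r10 ⟨-m *
      ((hElt hℓN γ OnePoint.infty : Gamma0 N) : SL(2, ℤ)) 1 1 - k, ?_⟩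
    linear_combination (-((hElt hℓN γ OnePoint.infty : Gamma0 N) : SL(2, ℤ)) 1 1) * hm + r11
  -- the term at `j₀`
  have hzero : f (s.symm 0) = φ (Additive.ofMul γ) := by
    have hj : (ℓ : ℤ) ∣ (γ : SL(2, ℤ)) 0 0 + ((s.symm 0).val : ℤ) * (γ : SL(2, ℤ)) 1 0 := by
      rw [hdvd_iff, Equiv.apply_symm_apply]
    obtain ⟨r10, r11⟩ := ih_row_coe_dvd hℓN γ (s.symm 0) hj
    refine ih_val_eq_of_row φ t hUR γ _ hc0 r10 ⟨m * (γ : SL(2, ℤ)) 1 1, ?_⟩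
    rw [r11]
    linear_combination ((γ : SL(2, ℤ)) 1 1) * hm
  -- the orbit sum
  have hunits : ∑ ε : (ZMod ℓ)ˣ, f (s.symm (ε : ZMod ℓ)) = 0 := by
    refine ih_orbit_sum hodd hF wU hwo (fun ε => f (s.symm (ε : ZMod ℓ))) (-((2 * κ) • t)) ?_
    intro ε
    have hj : ¬ (ℓ : ℤ) ∣ (γ : SL(2, ℤ)) 0 0 +
        ((s.symm (ε : ZMod ℓ)).val : ℤ) * (γ : SL(2, ℤ)) 1 0 := by
      rw [hdvd_iff, Equiv.apply_symm_apply]
      exact ε.ne_zero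
    have hj' : ¬ (ℓ : ℤ) ∣ (γ : SL(2, ℤ)) 0 0 +
        ((s.symm ((ε * wU : (ZMod ℓ)ˣ) : ZMod ℓ)).val : ℤ) * (γ : SL(2, ℤ)) 1 0 := by
      rw [hdvd_iff, Equiv.apply_symm_apply]
      exact (ε * wU).ne_zero
    obtain ⟨r10, ⟨k, r11⟩, r⟩ := ih_row_coe_not_dvd hℓN γ _ hj
    obtain ⟨r10', ⟨k', r11'⟩, r'⟩ := ih_row_coe_not_dvd hℓN γ _ hj'
    have he : ((((hElt hℓN γ ((s.symm (ε : ZMod ℓ) : ZMod ℓ) : OnePoint (ZMod ℓ)) : Gamma0 N) :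
        SL(2, ℤ)) 1 1 : ℤ) : ZMod ℓ) * (ε : ZMod ℓ) = 1 := by
      have := (ZMod.intCast_zmod_eq_zero_iff_dvd _ _).2 r
      rw [Int.cast_sub, Int.cast_mul, hcast, Equiv.apply_symm_apply, Int.cast_one,
        sub_eq_zero] at this
      exact this
    have he' : ((((hElt hℓN γ ((s.symm ((ε * wU : (ZMod ℓ)ˣ) : ZMod ℓ) : ZMod ℓ) :
        OnePoint (ZMod ℓ)) : Gamma0 N) : SL(2, ℤ)) 1 1 : ℤ) : ZMod ℓ) *
        ((ε : ZMod ℓ) * (q : ZMod ℓ) ^ (2 * κ)) = 1 := by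
      have := (ZMod.intCast_zmod_eq_zero_iff_dvd _ _).2 r'
      rw [Int.cast_sub, Int.cast_mul, hcast, Equiv.apply_symm_apply, Int.cast_one,
        sub_eq_zero] at this
      exact this
    have hUR' := hUR κ (hElt hℓN γ ((s.symm ((ε * wU : (ZMod ℓ)ˣ) : ZMod ℓ) : ZMod ℓ) :
        OnePoint (ZMod ℓ))) (hElt hℓN γ ((s.symm (ε : ZMod ℓ) : ZMod ℓ) : OnePoint (ZMod ℓ)))
      (r10.trans r10'.symm) (by rw [r10']; exact mul_ne_zero hℓ0 hc0) (by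
        rw [r10']
        refine hcop.mul_dvd ?_ ?_
        · rw [← ZMod.intCast_zmod_eq_zero_iff_dvd]
          push_cast
          linear_combination (-((((hElt hℓN γ ((s.symm (ε : ZMod ℓ) : ZMod ℓ) :
            OnePoint (ZMod ℓ)) : Gamma0 N) : SL(2, ℤ)) 1 1 : ℤ) : ZMod ℓ)) * he' +
            ((q : ZMod ℓ) ^ (2 * κ) * ((((hElt hℓN γ ((s.symm ((ε * wU : (ZMod ℓ)ˣ) : ZMod ℓ) :
              ZMod ℓ) : OnePoint (ZMod ℓ)) : Gamma0 N) : SL(2, ℤ)) 1 1 : ℤ) : ZMod ℓ)) * he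
        · rw [r11, r11']
          refine ⟨-k + (q : ℤ) ^ (2 * κ) * k' - m2 * (γ : SL(2, ℤ)) 1 1, ?_⟩
          linear_combination (-(γ : SL(2, ℤ)) 1 1) * hm2)
    show f (s.symm ((ε * wU : (ZMod ℓ)ˣ) : ZMod ℓ)) = f (s.symm (ε : ZMod ℓ)) - -((2 * κ) • t)
    have hUR'' : f (s.symm (ε : ZMod ℓ)) =
        f (s.symm ((ε * wU : (ZMod ℓ)ˣ) : ZMod ℓ)) - (2 * κ) • t := hUR'
    rw [hUR'']
    abel
  rw [heckeTransfer_apply, ih_sum_onePoint, hinf]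
  have hsum : ∑ j : ZMod ℓ, φ (Additive.ofMul (hElt hℓN γ (j : OnePoint (ZMod ℓ)))) =
      φ (Additive.ofMul γ) := by
    have e1 : ∑ j : ZMod ℓ, f j = ∑ x : ZMod ℓ, f (s.symm x) :=
      (Equiv.sum_comp s.symm f).symm
    show ∑ j : ZMod ℓ, f j = _
    rw [e1, ih_sum_zmod_units (fun x => f (s.symm x)), hunits, add_zero, hzero]
  rw [hsum, two_nsmul]

end Fermat.Agent.S41.H341
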