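import Mathlib
import Fermat.Agent.S41.Spec.Core
import Fermat.Agent.S41.H341.IHPrime

/-!
# Row S41, block IH (helper341, 2nd owner): `Spec.IharaEigenStatement` from NE'

`NEPrimeStatement` is block NE with the extra Kummer condition `q^((ℓ-1)/p) ≢ 1 mod ℓ`
(owner helper701).  From it, AM (`H585.amalg_ext`) and IH' (`ih_prime`) we derive
`Spec.IharaEigenStatement`.
-/

set_option autoImplicit false

namespace Fermat.Agent.S41.H341

open CongruenceSubgroup Matrix.SpecialLinearGroup ModularCurve.Period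
open Fermat.Agent.S29.H642 Fermat.Agent.S41.H585
open WeierstrassCurve WeierstrassCurve.Affine WeierstrassCurve.Affine.Point
open scoped MatrixGroups

/-- **Block NE'** : NE with the Kummer condition.  `E[p]` irreducible, `p` odd, `q ≠ p` prime ⇒ for
all `m ≥ 1` and finite `S` there is a good prime `ℓ ∉ S`, `ℓ ≡ 1 mod m`, with
`p ∤ a_ℓ(W) − (ℓ + 1)` and `q ^ ((ℓ - 1) / p) ≢ 1 mod ℓ`. -/
def NEPrimeStatement : Prop :=
  ∀ (E : WeierstrassCurve ℚ) [E.IsElliptic] (W : WeierstrassCurve ℤ), W.IsIntegralModelOf E →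
    ∀ p : ℕ, p.Prime → p ≠ 2 →
      GaloisRepIsIrreducible (K := AlgebraicClosure ℚ) ℚ E p →
      ∀ q : ℕ, q.Prime → q ≠ p →
      ∀ m : ℕ, 0 < m → ∀ S : Finset ℕ,
        ∃ ℓ : ℕ, ℓ.Prime ∧ ℓ ∉ S ∧ W.IsGoodPrimeFor ℓ ∧ ℓ ≡ 1 [MOD m] ∧
          ¬ (p : ℤ) ∣ W.apOfModel ℓ - ((ℓ : ℤ) + 1) ∧ (q : ZMod ℓ) ^ ((ℓ - 1) / p) ≠ 1

/-- Hypothesis (iii) of IH' from the Kummer condition. -/
theorem ih_dvd_orderOf {ℓ p q κ : ℕ} [Fact ℓ.Prime] (hp : p.Prime) (hq : (q : ZMod ℓ) ≠ 0)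
    (hdiv : 2 * κ * p ∣ ℓ - 1) (hK : (q : ZMod ℓ) ^ ((ℓ - 1) / p) ≠ 1) :
    p ∣ orderOf ((q : ZMod ℓ) ^ (2 * κ)) := by
  by_contra hnd
  obtain ⟨t', ht'⟩ := hdiv
  have hdiv' : (ℓ - 1) / p = 2 * κ * t' := by
    rw [ht']
    exact Nat.div_eq_of_eq_mul_left hp.pos (by ring)
  have h1 : ((q : ZMod ℓ) ^ (2 * κ)) ^ (p * t') = 1 := by
    rw [← pow_mul, ← mul_assoc, ← ht']
    exact ZMod.pow_card_sub_one_eq_one hq
  have h2 : orderOf ((q : ZMod ℓ) ^ (2 * κ)) ∣ p * t' := orderOf_dvd_of_pow_eq_one h1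
  have hcop : Nat.Coprime (orderOf ((q : ZMod ℓ) ^ (2 * κ))) p :=
    ((Nat.Prime.coprime_iff_not_dvd hp).2 hnd).symm
  have h3 : orderOf ((q : ZMod ℓ) ^ (2 * κ)) ∣ t' := hcop.dvd_of_dvd_mul_left h2
  apply hK
  rw [hdiv', pow_mul]
  exact orderOf_dvd_iff_pow_eq_one.1 h3

/-- The element `[[1, 0], [N, 1]]` of `Γ₀(N)`. -/
def ihL (N : ℕ) : Gamma0 N := mkGamma0 N 1 0 N 1 (by ring) (dvd_refl _)

theorem ihL_coe (N : ℕ) :
    (((ihL N : Gamma0 N) : SL(2, ℤ)) : Matrix (Fin 2) (Fin 2) ℤ) = !![1, 0; (N : ℤ), 1] := rfl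

theorem ih_mul_apply (g h : SL(2, ℤ)) (i j : Fin 2) :
    (g * h) i j = g i 0 * h 0 j + g i 1 * h 1 j := by
  rw [Matrix.SpecialLinearGroup.coe_mul, Matrix.mul_apply, Fin.sum_univ_two]

/-- A character with the unit relation which is an eigenvector of the `T_ℓ` with the eigenvalues
of `E[p]` irreducible vanishes. -/
theorem ih_phi_eq_zero (hNE : NEPrimeStatement)
    (E : WeierstrassCurve ℚ) [E.IsElliptic] (W : WeierstrassCurve ℤ) (hW : W.IsIntegralModelOf E)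
    (p N q : ℕ) (hp : p.Prime) (hp2 : p ≠ 2) (hN0 : N ≠ 0) (hq : q.Prime) (hqN : ¬ q ∣ N)
    (hqp : q ≠ p) (hirr : GaloisRepIsIrreducible (K := AlgebraicClosure ℚ) ℚ E p)
    (φ : Additive (Gamma0 N) →+ ZMod p) (hpar : IsParabolicHom (Gamma0 N) φ)
    (t : ZMod p) (hUR : IsUnitRel q φ t)
    (heig : ∀ (l : ℕ) [Fact l.Prime] (hl : ¬ l ∣ N), ¬ l ∣ N * q → W.IsGoodPrimeFor l → l ≠ p →
      heckeTransfer hl φ = ((W.apOfModel l : ℤ) : ZMod p) • φ) :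
    φ = 0 := by
  have : Fact p.Prime := ⟨hp⟩
  have hodd : ¬ 2 ∣ p := fun h => hp2 ((Nat.prime_dvd_prime_iff_eq Nat.prime_two hp).1 h).symm
  have hF : ∀ x : ZMod p, p • x = 0 := fun x => by
    rw [nsmul_eq_mul, ZMod.natCast_self, zero_mul]
  have key : ∀ γ : Gamma0 N, ¬ (q : ℤ) ∣ (γ : SL(2, ℤ)) 1 0 → φ (Additive.ofMul γ) = 0 := by
    intro γ hqc
    have hc0 : (γ : SL(2, ℤ)) 1 0 ≠ 0 := fun h => hqc (h ▸ dvd_zero _)
    set κ := Nat.totient ((γ : SL(2, ℤ)) 1 0).natAbs with hκ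
    have hκ0 : 0 < κ := Nat.totient_pos.2 (Int.natAbs_pos.2 hc0)
    set m₀ := 2 * κ * p * ((γ : SL(2, ℤ)) 1 0).natAbs with hm₀
    have hm₀pos : 0 < m₀ :=
      Nat.mul_pos (Nat.mul_pos (Nat.mul_pos (by norm_num) hκ0) hp.pos) (Int.natAbs_pos.2 hc0)
    obtain ⟨ℓ, hℓ, hℓS, hgood, hℓm, hap, hK⟩ :=
      hNE E W hW p hp hp2 hirr q hq hqp m₀ hm₀pos (insert q (insert p N.primeFactors))
    have : Fact ℓ.Prime := ⟨hℓ⟩
    have hℓq : ℓ ≠ q := fun h => hℓS (by simp [h])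
    have hℓp : ℓ ≠ p := fun h => hℓS (by simp [h])
    have hℓN : ¬ ℓ ∣ N := fun h => hℓS (by simp [Nat.mem_primeFactors, hℓ, h, hN0])
    have hℓNq : ¬ ℓ ∣ N * q := by
      intro h
      rcases (Nat.Prime.dvd_mul hℓ).1 h with h | h
      · exact hℓN h
      · exact hℓq ((Nat.prime_dvd_prime_iff_eq hℓ hq).1 h)
    have hqℓ : (q : ZMod ℓ) ≠ 0 := by
      rw [Ne, ZMod.natCast_eq_zero_iff]
      intro h
      exact hℓq ((Nat.prime_dvd_prime_iff_eq hℓ hq).1 h)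
    have hm₀dvd : m₀ ∣ ℓ - 1 := (Nat.modEq_iff_dvd' hℓ.one_lt.le).1 hℓm.symm
    have h1 : (γ : SL(2, ℤ)) 1 0 ∣ (ℓ : ℤ) - 1 := by
      rw [← Int.natAbs_dvd]
      have h : ((γ : SL(2, ℤ)) 1 0).natAbs ∣ ℓ - 1 := dvd_trans (Dvd.intro_left _ rfl) hm₀dvd
      have h' := Int.natCast_dvd_natCast.2 h
      rwa [Nat.cast_sub hℓ.one_lt.le, Nat.cast_one] at h'
    have h2 : (γ : SL(2, ℤ)) 1 0 ∣ (q : ℤ) ^ (2 * κ) - 1 := by
      rw [← Int.natAbs_dvd]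
      have hcop : Nat.Coprime q ((γ : SL(2, ℤ)) 1 0).natAbs :=
        (Nat.Prime.coprime_iff_not_dvd hq).2 (fun h => hqc (Int.natCast_dvd.2 h))
      have h := Nat.ModEq.pow_totient hcop
      have h' : q ^ (2 * κ) ≡ 1 [MOD ((γ : SL(2, ℤ)) 1 0).natAbs] := by
        rw [mul_comm, pow_mul]
        simpa using h.pow 2
      have h'' := (Nat.modEq_iff_dvd' (Nat.one_le_pow _ _ hq.pos)).1 h'.symm
      have h3 := Int.natCast_dvd_natCast.2 h''
      rwa [Nat.cast_sub (Nat.one_le_pow _ _ hq.pos), Nat.cast_pow, Nat.cast_one] at h3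
    have h3 : p ∣ orderOf ((q : ZMod ℓ) ^ (2 * κ)) :=
      ih_dvd_orderOf hp hqℓ (dvd_trans ⟨((γ : SL(2, ℤ)) 1 0).natAbs, rfl⟩ hm₀dvd) hK
    have hT := ih_prime hℓN φ t hUR hodd hF γ κ h1 h2 hqℓ h3
    have he := congrArg (fun ψ : Additive (Gamma0 N) →+ ZMod p => ψ (Additive.ofMul γ))
      (heig ℓ hℓN hℓNq hgood hℓp)
    simp only [AddMonoidHom.smul_apply] at he
    rw [hT, smul_eq_mul, nsmul_eq_mul] at he
    have hℓ1 : (ℓ : ZMod p) = 1 := by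
      have h : p ∣ ℓ - 1 :=
        dvd_trans ⟨2 * κ * ((γ : SL(2, ℤ)) 1 0).natAbs, by rw [hm₀]; ring⟩ hm₀dvd
      have h' : ((ℓ - 1 : ℕ) : ZMod p) = 0 := (ZMod.natCast_eq_zero_iff _ _).2 h
      rw [Nat.cast_sub hℓ.one_lt.le, Nat.cast_one, sub_eq_zero] at h'
      exact h'
    have hne : ((W.apOfModel ℓ : ℤ) : ZMod p) - 2 ≠ 0 := by
      intro h
      apply hap
      rw [← ZMod.intCast_zmod_eq_zero_iff_dvd]
      push_cast
      rw [hℓ1]
      linear_combination h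
    have hmul : (((W.apOfModel ℓ : ℤ) : ZMod p) - 2) * φ (Additive.ofMul γ) = 0 := by
      rw [sub_mul, ← he]
      push_cast
      ring
    exact (mul_eq_zero.1 hmul).resolve_left hne
  refine AddMonoidHom.ext fun x => ?_
  obtain ⟨γ, rfl⟩ : ∃ γ : Gamma0 N, Additive.ofMul γ = x := ⟨Additive.toMul x, rfl⟩
  show φ (Additive.ofMul γ) = 0
  by_cases hqc : (q : ℤ) ∣ (γ : SL(2, ℤ)) 1 0
  · have hL : φ (Additive.ofMul (ihL N)) = 0 := by
      apply hpar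
      rw [ihL_coe, Matrix.trace_fin_two]
      norm_num
    have hq' : Prime (q : ℤ) := Nat.prime_iff_prime_int.1 hq
    have h : φ (Additive.ofMul (γ * ihL N)) = 0 := by
      apply key
      rw [Subgroup.coe_mul, ih_mul_apply]
      have e10 : ((ihL N : Gamma0 N) : SL(2, ℤ)) 0 0 = 1 := rfl
      have e11 : ((ihL N : Gamma0 N) : SL(2, ℤ)) 1 0 = (N : ℤ) := rfl
      rw [e10, e11, mul_one]
      intro hdvd
      have h2 : (q : ℤ) ∣ (γ : SL(2, ℤ)) 1 1 * (N : ℤ) := (dvd_add_right hqc).1 hdvd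
      rcases hq'.dvd_or_dvd h2 with h3 | h3
      · have hdet := ih_det_eq (γ : SL(2, ℤ))
        have h1 : (q : ℤ) ∣ 1 := by
          rw [← hdet]
          exact dvd_sub (Dvd.dvd.mul_left h3 _) (Dvd.dvd.mul_left hqc _)
        exact hq'.not_dvd_one h1
      · exact hqN (Int.natCast_dvd_natCast.1 h3)
    rw [ofMul_mul, map_add, hL, add_zero] at h
    exact h
  · exact key γ hqc

/-! ## The image of `conjDelta` and `T` generate `Γ₀(N)` -/

/-- Every element of `Γ₀(N)` with upper right entry divisible by `q` is in the image of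
`conjDelta`. -/
theorem ih_exists_conjDelta {N q : ℕ} (hq0 : q ≠ 0) (g : Gamma0 N)
    (hb : (q : ℤ) ∣ (g : SL(2, ℤ)) 0 1) :
    ∃ γ₀ : Gamma0 (N * q), Spec.conjDelta N q γ₀ = g := by
  obtain ⟨b', hb'⟩ := hb
  have hq0' : (q : ℤ) ≠ 0 := by exact_mod_cast hq0
  have hdet := ih_det_eq (g : SL(2, ℤ))
  obtain ⟨c', hc'⟩ := dvd_of_mem_Gamma0 g.2
  refine ⟨mkGamma0 (N * q) ((g : SL(2, ℤ)) 0 0) b' ((q : ℤ) * (g : SL(2, ℤ)) 1 0)
    ((g : SL(2, ℤ)) 1 1) (by rw [hb'] at hdet; linear_combination hdet)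
    ⟨c', by rw [hc']; push_cast; ring⟩, ?_⟩
  apply Subtype.ext
  apply Subtype.ext
  show Spec.conjDeltaMatrix q _ = _
  ext i j
  fin_cases i <;> fin_cases j
  · rfl
  · show (q : ℤ) * b' = (g : SL(2, ℤ)) 0 1
    rw [hb']
  · show (q : ℤ) * (g : SL(2, ℤ)) 1 0 / q = (g : SL(2, ℤ)) 1 0
    exact Int.mul_ediv_cancel_left _ hq0'
  · rfl

/-- A parabolic character of `Γ₀(N)` killed by `r₂` vanishes. -/
theorem ih_eq_zero_of_r₂ {N q : ℕ} (hq : q.Prime) {F : Type*} [AddCommGroup F]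
    (φ : Additive (Gamma0 N) →+ F) (hpar : IsParabolicHom (Gamma0 N) φ)
    (h : Spec.r₂ N q φ = 0) : φ = 0 := by
  have hq' : Prime (q : ℤ) := Nat.prime_iff_prime_int.1 hq
  have hT : ∀ n : ℤ, φ (Additive.ofMul (ihT N ^ n)) = 0 := by
    intro n
    apply hpar
    rw [ihT_zpow_coe, Matrix.trace_fin_two]
    norm_num
  have hTe : ∀ (n : ℤ) (i j : Fin 2), ((ihT N ^ n : Gamma0 N) : SL(2, ℤ)) i j =
      (!![1, n; 0, 1] : Matrix (Fin 2) (Fin 2) ℤ) i j := by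
    intro n i j
    rw [← ihT_zpow_coe N n]
  -- (a) elements with `q ∣ b`
  have ha : ∀ g : Gamma0 N, (q : ℤ) ∣ (g : SL(2, ℤ)) 0 1 → φ (Additive.ofMul g) = 0 := by
    intro g hb
    obtain ⟨γ₀, rfl⟩ := ih_exists_conjDelta hq.ne_zero g hb
    have := congrArg (fun ψ : Additive (Gamma0 (N * q)) →+ F => ψ (Additive.ofMul γ₀)) h
    exact this
  -- (c) elements with `q ∤ a`
  have hc : ∀ g : Gamma0 N, ¬ (q : ℤ) ∣ (g : SL(2, ℤ)) 0 0 → φ (Additive.ofMul g) = 0 := by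
    intro g hqa
    have hcop : IsCoprime ((g : SL(2, ℤ)) 0 0) (q : ℤ) :=
      (hq'.coprime_iff_not_dvd.2 hqa).symm
    obtain ⟨u, v, huv⟩ := hcop
    have h1 : φ (Additive.ofMul (g * ihT N ^ (-(g : SL(2, ℤ)) 0 1 * u))) = 0 := by
      apply ha
      rw [Subgroup.coe_mul, ih_mul_apply, hTe, hTe]
      refine ⟨(g : SL(2, ℤ)) 0 1 * v, ?_⟩
      simp only [Matrix.of_apply, Matrix.cons_val', Matrix.cons_val_zero, Matrix.cons_val_one,
        Matrix.cons_val_fin_one]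
      linear_combination (-(g : SL(2, ℤ)) 0 1) * huv
    rw [ofMul_mul, map_add, hT, add_zero] at h1
    exact h1
  refine AddMonoidHom.ext fun x => ?_
  obtain ⟨g, rfl⟩ : ∃ g : Gamma0 N, Additive.ofMul g = x := ⟨Additive.toMul x, rfl⟩
  show φ (Additive.ofMul g) = 0
  by_cases hqa : (q : ℤ) ∣ (g : SL(2, ℤ)) 0 0
  · have h1 : φ (Additive.ofMul (ihT N ^ (1 : ℤ) * g)) = 0 := by
      apply hc
      rw [Subgroup.coe_mul, ih_mul_apply, hTe, hTe]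
      simp only [Matrix.of_apply, Matrix.cons_val', Matrix.cons_val_zero, Matrix.cons_val_one,
        Matrix.cons_val_fin_one]
      intro hdvd
      rw [one_mul, one_mul] at hdvd
      have h2 : (q : ℤ) ∣ (g : SL(2, ℤ)) 1 0 := (dvd_add_right hqa).1 hdvd
      have hdet := ih_det_eq (g : SL(2, ℤ))
      have h3 : (q : ℤ) ∣ 1 := by
        rw [← hdet]
        exact dvd_sub (Dvd.dvd.mul_right hqa _) (Dvd.dvd.mul_left h2 _)
      exact hq'.not_dvd_one h3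
    rw [ofMul_mul, map_add, hT, zero_add] at h1
    exact h1
  · exact hc g hqa

/-! ## The amalgam and the main theorem -/

/-- AM compatibility: `J1 γ = J2 γ'` says `γ ∈ Γ₀(N q)` and `γ' = c_δ(γ)`. -/
theorem ih_compat {N q : ℕ} [hq : Fact q.Prime] (γ γ' : Gamma0 N) (h : J1 N γ = J2 N q γ') :
    ∃ γ₀ : Gamma0 (N * q), Spec.incl N q γ₀ = γ ∧ Spec.conjDelta N q γ₀ = γ' := by
  have hq0 : (q : ℚ) ≠ 0 := Nat.cast_ne_zero.mpr hq.out.ne_zero
  have hq0' : (q : ℤ) ≠ 0 := by exact_mod_cast hq.out.ne_zero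
  have hM := congrArg (fun x : SL(2, ℚ) => (x : Matrix (Fin 2) (Fin 2) ℚ)) h
  simp only [J2_apply] at hM
  have h00 : (γ : SL(2, ℤ)) 0 0 = (γ' : SL(2, ℤ)) 0 0 := by
    have := congrFun (congrFun hM 0) 0
    rw [J1_apply] at this
    simpa using this
  have h01 : (γ' : SL(2, ℤ)) 0 1 = (q : ℤ) * (γ : SL(2, ℤ)) 0 1 := by
    have := congrFun (congrFun hM 0) 1
    rw [J1_apply] at this
    simp only [Matrix.of_apply, Matrix.cons_val', Matrix.cons_val_zero, Matrix.cons_val_one,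
      Matrix.cons_val_fin_one] at this
    rw [eq_div_iff hq0] at this
    have h' : (((γ' : SL(2, ℤ)) 0 1 : ℤ) : ℚ) = (((q : ℤ) * (γ : SL(2, ℤ)) 0 1 : ℤ) : ℚ) := by
      push_cast
      rw [← this]
      ring
    exact_mod_cast h'
  have h10 : (γ : SL(2, ℤ)) 1 0 = (q : ℤ) * (γ' : SL(2, ℤ)) 1 0 := by
    have := congrFun (congrFun hM 1) 0
    rw [J1_apply] at this
    simp only [Matrix.of_apply, Matrix.cons_val', Matrix.cons_val_zero, Matrix.cons_val_one,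
      Matrix.cons_val_fin_one] at this
    exact_mod_cast this
  have h11 : (γ : SL(2, ℤ)) 1 1 = (γ' : SL(2, ℤ)) 1 1 := by
    have := congrFun (congrFun hM 1) 1
    rw [J1_apply] at this
    simpa using this
  obtain ⟨c', hc'⟩ := dvd_of_mem_Gamma0 γ'.2
  refine ⟨⟨(γ : SL(2, ℤ)), mem_Gamma0_of_dvd ⟨c', by rw [h10, hc']; push_cast; ring⟩⟩,
    Subtype.ext rfl, ?_⟩
  apply Subtype.ext
  apply Subtype.ext
  show Spec.conjDeltaMatrix q (γ : SL(2, ℤ)) = _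
  ext i j
  fin_cases i <;> fin_cases j
  · exact h00
  · exact h01.symm
  · show (γ : SL(2, ℤ)) 1 0 / (q : ℤ) = (γ' : SL(2, ℤ)) 1 0
    rw [h10]
    exact Int.mul_ediv_cancel_left _ hq0'
  · exact h11

/-- **Block IH** from NE': `Spec.IharaEigenStatement`. -/
theorem ihara_of_nePrime (hNE : NEPrimeStatement) : Spec.IharaEigenStatement := by
  intro E _ W hW p N q hp hp2 hN0 hq hqN hqp hirr φ₁ φ₂ hc₁ hc₂ hker heig
  have : Fact q.Prime := ⟨hq⟩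
  have hcop : Nat.Coprime N q := ((Nat.Prime.coprime_iff_not_dvd hq).2 hqN).symm
  have hcompat : ∀ γ γ' : Gamma0 N, J1 N γ = J2 N q γ' →
      (AddMonoidHom.toMultiplicativeRight φ₁ : Gamma0 N →* Multiplicative (ZMod p)) γ =
      (AddMonoidHom.toMultiplicativeRight (-φ₂) : Gamma0 N →* Multiplicative (ZMod p)) γ' := by
    intro γ γ' h
    obtain ⟨γ₀, rfl, rfl⟩ := ih_compat γ γ' h
    have h0 := congrArg (fun ψ : Additive (Gamma0 (N * q)) →+ ZMod p => ψ (Additive.ofMul γ₀)) hker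
    have h0' : φ₁ (Additive.ofMul (Spec.incl N q γ₀)) +
        φ₂ (Additive.ofMul (Spec.conjDelta N q γ₀)) = 0 := h0
    show Multiplicative.ofAdd (φ₁ (Additive.ofMul (Spec.incl N q γ₀))) =
      Multiplicative.ofAdd (-φ₂ (Additive.ofMul (Spec.conjDelta N q γ₀)))
    rw [eq_neg_of_add_eq_zero_left h0']
  obtain ⟨Φ, ⟨hΦ1, -⟩, -⟩ := amalg_ext hcop _ _ hcompat
  have hT : φ₁ (Additive.ofMul (ihT N)) = 0 := by
    apply hc₁.1
    have := ihT_zpow_coe N 1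
    rw [zpow_one] at this
    rw [this, Matrix.trace_fin_two]
    norm_num
  have hUR := ih_isUnitRel φ₁ Φ (fun γ => hΦ1 γ) hT
  have h1 : φ₁ = 0 :=
    ih_phi_eq_zero hNE E W hW p N q hp hp2 hN0 hq hqN hqp hirr φ₁ hc₁.1 _ hUR
      (fun l _ hl hl' hg hlp => (heig l hl hl' hg hlp).1)
  refine ⟨h1, ih_eq_zero_of_r₂ hq φ₂ hc₂.1 ?_⟩
  rw [h1] at hker
  have hz : Spec.r₁ N q (0 : Additive (Gamma0 N) →+ ZMod p) = 0 := AddMonoidHom.zero_comp _
  rwa [hz, zero_add] at hker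

end Fermat.Agent.S41.H341
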